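/-
S52 / Program E (helper3): generic group-law formulas on a short Weierstrass curve
`y² = x³ + a₄ x + a₆` over a field, on Mathlib's `WeierstrassCurve.Affine.Point`:
* `add_sub_X`  : for `x₁ ≠ x₂`, the x-coordinates `x₃ = x(P+Q)`, `x₄ = x(P-Q)` satisfy
    `(x₃ + x₄) (x₁ - x₂)² = 2 ((x₁ x₂ + a₄)(x₁ + x₂) + 2 a₆)`,
    `(x₃ x₄) (x₁ - x₂)² = (x₁ x₂ - a₄)² - 4 a₆ (x₁ + x₂)`;
* `two_nsmul_X`: the duplication formula `x(2P) · 4 (x₁³ + a₄ x₁ + a₆) = x₁⁴ - 2 a₄ x₁² - 8 a₆ x₁ + a₄²`.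
Mathlib only.
-/
import Mathlib

set_option autoImplicit false

open WeierstrassCurve WeierstrassCurve.Affine

namespace Fermat.Agent.S52.H3

variable {K : Type*} [Field K] [DecidableEq K] (W : WeierstrassCurve.Affine K)

omit [DecidableEq K] in
/-- Transport of an affine point along equalities of coordinates. -/
theorem some_congr {x x' y y' : K} (hx : x = x') (hy : y = y') (h : W.Nonsingular x y) :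
    ∃ h' : W.Nonsingular x' y', Point.some x y h = Point.some x' y' h' := by
  subst hx; subst hy; exact ⟨h, rfl⟩

omit [DecidableEq K] in
/-- The curve equation of a short Weierstrass curve at a nonsingular point. -/
theorem short_equation (ha₁ : W.a₁ = 0) (ha₂ : W.a₂ = 0) (ha₃ : W.a₃ = 0) {x y : K}
    (h : W.Nonsingular x y) : y ^ 2 = x ^ 3 + W.a₄ * x + W.a₆ := by
  have := (W.equation_iff x y).1 h.1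
  rw [ha₁, ha₂, ha₃] at this
  linear_combination this

/-- `P + Q` for `x₁ ≠ x₂`: the chord formula for the x-coordinate. -/
theorem add_X_of_X_ne (ha₁ : W.a₁ = 0) (ha₂ : W.a₂ = 0) {x₁ x₂ y₁ y₂ : K}
    (h₁ : W.Nonsingular x₁ y₁) (h₂ : W.Nonsingular x₂ y₂) (hx : x₁ ≠ x₂) :
    ∃ (y₃ : K) (h₃ : W.Nonsingular (((y₁ - y₂) / (x₁ - x₂)) ^ 2 - x₁ - x₂) y₃),
      Point.some x₁ y₁ h₁ + Point.some x₂ y₂ h₂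
        = Point.some (((y₁ - y₂) / (x₁ - x₂)) ^ 2 - x₁ - x₂) y₃ h₃ := by
  have e : W.addX x₁ x₂ (W.slope x₁ x₂ y₁ y₂) = ((y₁ - y₂) / (x₁ - x₂)) ^ 2 - x₁ - x₂ := by
    rw [Affine.slope_of_X_ne hx, Affine.addX, ha₁, ha₂]; ring
  have h := Point.add_of_X_ne (h₁ := h₁) (h₂ := h₂) hx
  obtain ⟨h', e'⟩ := some_congr W e rfl (Affine.nonsingular_add h₁ h₂ (fun hxy => hx hxy.left))
  exact ⟨_, h', h.trans e'⟩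

/-- `P - Q` for `x₁ ≠ x₂` on a short Weierstrass curve. -/
theorem sub_X_of_X_ne (ha₁ : W.a₁ = 0) (ha₂ : W.a₂ = 0) (ha₃ : W.a₃ = 0) {x₁ x₂ y₁ y₂ : K}
    (h₁ : W.Nonsingular x₁ y₁) (h₂ : W.Nonsingular x₂ y₂) (hx : x₁ ≠ x₂) :
    ∃ (y₄ : K) (h₄ : W.Nonsingular (((y₁ + y₂) / (x₁ - x₂)) ^ 2 - x₁ - x₂) y₄),
      Point.some x₁ y₁ h₁ - Point.some x₂ y₂ h₂
        = Point.some (((y₁ + y₂) / (x₁ - x₂)) ^ 2 - x₁ - x₂) y₄ h₄ := by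
  have hneg : W.negY x₂ y₂ = -y₂ := by rw [Affine.negY, ha₁, ha₃]; ring
  obtain ⟨y₄, h₄, h⟩ := add_X_of_X_ne W ha₁ ha₂ h₁ ((Affine.nonsingular_neg ..).mpr h₂) hx
  have hsub : Point.some x₁ y₁ h₁ - Point.some x₂ y₂ h₂
      = Point.some x₁ y₁ h₁ + Point.some x₂ (W.negY x₂ y₂) ((Affine.nonsingular_neg ..).mpr h₂) := by
    rw [sub_eq_add_neg, Point.neg_some]
  have e : ((y₁ - W.negY x₂ y₂) / (x₁ - x₂)) ^ 2 - x₁ - x₂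
      = ((y₁ + y₂) / (x₁ - x₂)) ^ 2 - x₁ - x₂ := by rw [hneg, sub_neg_eq_add]
  obtain ⟨h', e'⟩ := some_congr W e rfl h₄
  exact ⟨y₄, h', hsub.trans (h.trans e')⟩

/-- Sum and product of `x(P+Q)` and `x(P-Q)` on a short Weierstrass curve (`x₁ ≠ x₂`). -/
theorem add_sub_X (ha₁ : W.a₁ = 0) (ha₂ : W.a₂ = 0) (ha₃ : W.a₃ = 0) {x₁ x₂ y₁ y₂ : K}
    (h₁ : W.Nonsingular x₁ y₁) (h₂ : W.Nonsingular x₂ y₂) (hx : x₁ ≠ x₂) :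
    ∃ (x₃ y₃ : K) (h₃ : W.Nonsingular x₃ y₃) (x₄ y₄ : K) (h₄ : W.Nonsingular x₄ y₄),
      Point.some x₁ y₁ h₁ + Point.some x₂ y₂ h₂ = Point.some x₃ y₃ h₃ ∧
      Point.some x₁ y₁ h₁ - Point.some x₂ y₂ h₂ = Point.some x₄ y₄ h₄ ∧
      x₃ = ((y₁ - y₂) / (x₁ - x₂)) ^ 2 - x₁ - x₂ ∧
      x₄ = ((y₁ + y₂) / (x₁ - x₂)) ^ 2 - x₁ - x₂ ∧
      (x₃ + x₄) * (x₁ - x₂) ^ 2 = 2 * ((x₁ * x₂ + W.a₄) * (x₁ + x₂) + 2 * W.a₆) ∧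
      (x₃ * x₄) * (x₁ - x₂) ^ 2 = (x₁ * x₂ - W.a₄) ^ 2 - 4 * W.a₆ * (x₁ + x₂) := by
  obtain ⟨y₃, h₃, hadd⟩ := add_X_of_X_ne W ha₁ ha₂ h₁ h₂ hx
  obtain ⟨y₄, h₄, hsub⟩ := sub_X_of_X_ne W ha₁ ha₂ ha₃ h₁ h₂ hx
  have E₁ := short_equation W ha₁ ha₂ ha₃ h₁
  have E₂ := short_equation W ha₁ ha₂ ha₃ h₂
  have hd : x₁ - x₂ ≠ 0 := sub_ne_zero.mpr hx
  have ep : (y₁ - y₂) / (x₁ - x₂) * (x₁ - x₂) = y₁ - y₂ := div_mul_cancel₀ _ hd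
  have em : (y₁ + y₂) / (x₁ - x₂) * (x₁ - x₂) = y₁ + y₂ := div_mul_cancel₀ _ hd
  refine ⟨_, y₃, h₃, _, y₄, h₄, hadd, hsub, rfl, rfl, ?_, ?_⟩
  · generalize (y₁ - y₂) / (x₁ - x₂) = lp at ep
    generalize (y₁ + y₂) / (x₁ - x₂) = lm at em
    linear_combination (lp * (x₁ - x₂) + (y₁ - y₂)) * ep + (lm * (x₁ - x₂) + (y₁ + y₂)) * em
      + 2 * E₁ + 2 * E₂
  · generalize (y₁ - y₂) / (x₁ - x₂) = lp at ep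
    generalize (y₁ + y₂) / (x₁ - x₂) = lm at em
    have hd2 : (x₁ - x₂) ^ 2 ≠ 0 := pow_ne_zero 2 hd
    have key : (x₁ - x₂) ^ 2 * ((lp ^ 2 - x₁ - x₂) * (lm ^ 2 - x₁ - x₂) * (x₁ - x₂) ^ 2
        - ((x₁ * x₂ - W.a₄) ^ 2 - 4 * W.a₆ * (x₁ + x₂))) = 0 := by
      linear_combination
        (lp * (x₁ - x₂) + (y₁ - y₂)) * (lm ^ 2 - x₁ - x₂) * (x₁ - x₂) ^ 2 * ep
        + ((y₁ - y₂) ^ 2 - (x₁ + x₂) * (x₁ - x₂) ^ 2) * (lm * (x₁ - x₂) + (y₁ + y₂)) * em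
        + ((y₁ ^ 2 - y₂ ^ 2 + (x₁ ^ 3 + W.a₄ * x₁ + W.a₆) - (x₂ ^ 3 + W.a₄ * x₂ + W.a₆))
            - 2 * (x₁ + x₂) * (x₁ - x₂) ^ 2) * E₁
        + (-(y₁ ^ 2 - y₂ ^ 2 + (x₁ ^ 3 + W.a₄ * x₁ + W.a₆) - (x₂ ^ 3 + W.a₄ * x₂ + W.a₆))
            - 2 * (x₁ + x₂) * (x₁ - x₂) ^ 2) * E₂
    have := (mul_eq_zero.mp key).resolve_left hd2
    linear_combination this

/-- Duplication formula on a short Weierstrass curve. -/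
theorem two_nsmul_X (ha₁ : W.a₁ = 0) (ha₂ : W.a₂ = 0) (ha₃ : W.a₃ = 0) {x₁ y₁ : K}
    (h₁ : W.Nonsingular x₁ y₁) (hy : y₁ ≠ 0) (h2 : (2 : K) ≠ 0) :
    ∃ (x₃ y₃ : K) (h₃ : W.Nonsingular x₃ y₃),
      2 • Point.some x₁ y₁ h₁ = Point.some x₃ y₃ h₃ ∧
      x₃ = ((3 * x₁ ^ 2 + W.a₄) / (2 * y₁)) ^ 2 - 2 * x₁ ∧
      x₃ * (4 * (x₁ ^ 3 + W.a₄ * x₁ + W.a₆))
        = x₁ ^ 4 - 2 * W.a₄ * x₁ ^ 2 - 8 * W.a₆ * x₁ + W.a₄ ^ 2 := by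
  have hneg : W.negY x₁ y₁ = -y₁ := by rw [Affine.negY, ha₁, ha₃]; ring
  have hy' : y₁ ≠ W.negY x₁ y₁ := by
    rw [hneg]
    intro h
    have : 2 * y₁ = 0 := by linear_combination h
    rcases mul_eq_zero.mp this with h | h
    · exact h2 h
    · exact hy h
  have E₁ := short_equation W ha₁ ha₂ ha₃ h₁
  have h2y : 2 * y₁ ≠ 0 := mul_ne_zero h2 hy
  have e : W.addX x₁ x₁ (W.slope x₁ x₁ y₁ y₁) = ((3 * x₁ ^ 2 + W.a₄) / (2 * y₁)) ^ 2 - 2 * x₁ := by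
    rw [Affine.slope_of_Y_ne rfl hy', Affine.addX, ha₁, ha₂, hneg]
    have : y₁ - -y₁ = 2 * y₁ := by ring
    rw [this]; ring
  have h := Point.add_self_of_Y_ne (h₁ := h₁) hy'
  obtain ⟨h', e'⟩ := some_congr W e rfl (Affine.nonsingular_add h₁ h₁ (fun hxy => hy' hxy.right))
  refine ⟨_, W.addY x₁ x₁ y₁ (W.slope x₁ x₁ y₁ y₁), h', ?_, rfl, ?_⟩
  · rw [two_nsmul, h, e']
  · have el : (3 * x₁ ^ 2 + W.a₄) / (2 * y₁) * (2 * y₁) = 3 * x₁ ^ 2 + W.a₄ :=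
      div_mul_cancel₀ _ h2y
    generalize (3 * x₁ ^ 2 + W.a₄) / (2 * y₁) = lam at el
    linear_combination (lam * (2 * y₁) + (3 * x₁ ^ 2 + W.a₄)) * el
      + (-(4 * lam ^ 2)) * E₁

end Fermat.Agent.S52.H3
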