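/-
S52 / Program E, E7-GLUE (helper3): the ABSTRACT INTERFACE between the family identities (E0),
Theorem A' (E5) and the final assembly (E7).

A "Klein family" is a triple of polynomial operations `Rh Sh Dh` in four variables `(a, b, n, m)`
(given as functions on every commutative ring, compatible with ring homomorphisms) such that, for
the Klein forms `kf, kH, kT` and the covariant `w = (kwx, kwy)` of `H93/KleinAway.lean`,

  `kH (n • v + m • w v) = Rh (kH v) (kT v) n m`,
  `kT (n • v + m • w v) = Sh (kH v) (kT v) n m`,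
  `kf (n • v + m • w v) = kf v * Dh (kH v) (kT v) n m`,

and `Rh a b n 0 = a n^20`, `Sh a b n 0 = b n^30`, `Dh a b n 0 = n^12`.

`ThmA` is Theorem A' for such a family in the only shape the final assembly needs (base point
`(n, m) = (1, 0)`).  Definitions only.
-/
import Mathlib
import Fermat.Agent.S52.H93.KleinAway

set_option autoImplicit false

namespace Fermat.Agent.S52.H3

open Fermat.Agent.S52.H93

/-- The interface to be instantiated by the family identities (E0). -/
structure IsKleinFamily (Rh Sh Dh : ∀ (R : Type) [CommRing R], R → R → R → R → R) : Prop where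
  map_Rh : ∀ {R S : Type} [CommRing R] [CommRing S] (φ : R →+* S) (a b n m : R),
    φ (Rh R a b n m) = Rh S (φ a) (φ b) (φ n) (φ m)
  map_Sh : ∀ {R S : Type} [CommRing R] [CommRing S] (φ : R →+* S) (a b n m : R),
    φ (Sh R a b n m) = Sh S (φ a) (φ b) (φ n) (φ m)
  map_Dh : ∀ {R S : Type} [CommRing R] [CommRing S] (φ : R →+* S) (a b n m : R),
    φ (Dh R a b n m) = Dh S (φ a) (φ b) (φ n) (φ m)
  Rh_zero : ∀ {R : Type} [CommRing R] (a b n : R), Rh R a b n 0 = a * n ^ 20
  Sh_zero : ∀ {R : Type} [CommRing R] (a b n : R), Sh R a b n 0 = b * n ^ 30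
  Dh_zero : ∀ {R : Type} [CommRing R] (a b n : R), Dh R a b n 0 = n ^ 12
  lineH : ∀ {R : Type} [CommRing R] (x y n m : R),
    kH (n * x + m * kwx x y) (n * y + m * kwy x y) = Rh R (kH x y) (kT x y) n m
  lineT : ∀ {R : Type} [CommRing R] (x y n m : R),
    kT (n * x + m * kwx x y) (n * y + m * kwy x y) = Sh R (kH x y) (kT x y) n m
  lineF : ∀ {R : Type} [CommRing R] (x y n m : R),
    kf (n * x + m * kwx x y) (n * y + m * kwy x y) = kf x y * Dh R (kH x y) (kT x y) n m

/-- Theorem A' (E5) for a family, with base point `(n, m) = (1, 0)`: over `𝔽_ℓ`, `ℓ ≥ 7`, the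
curve `y² = x³ + 27 Rh x + 54 Sh` at a parameter with `Dh ≠ 0` has the same number of points
modulo `5` as `y² = x³ + 27 A₀ x + 54 B₀`. -/
def ThmA (Rh Sh Dh : ∀ (R : Type) [CommRing R], R → R → R → R → R) : Prop :=
  ∀ (l : ℕ) [Fact l.Prime], 7 ≤ l → ∀ (A0 B0 ν μ : ZMod l), A0 ^ 3 + B0 ^ 2 ≠ 0 →
    Dh (ZMod l) A0 B0 ν μ ≠ 0 →
    (5 : ℤ) ∣
      (Nat.card (⟨0, 0, 0, 27 * Rh (ZMod l) A0 B0 ν μ, 54 * Sh (ZMod l) A0 B0 ν μ⟩ :
          WeierstrassCurve (ZMod l)).toAffine.Point : ℤ)
        - (Nat.card (⟨0, 0, 0, 27 * A0, 54 * B0⟩ : WeierstrassCurve (ZMod l)).toAffine.Point : ℤ)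

end Fermat.Agent.S52.H3
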