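/-
S52 / Program E, E7-GLUE (helper3): from an abstract Klein family (`IsKleinFamily Rh Sh Dh`, the
export of E0) and Theorem A' for it (`ThmA Rh Sh Dh`, the export of E5) to the frozen conclusion
of S52, through the abstract top assembly `H58.s52_of_family`.

For an integral model `W` with `Δ ≠ 0`, `M := 2^7 · 3^4 · 5 · |Δ|` and the family polynomials
`c4f := -Rh ℤ[X] (C (-c₄)) (C (-c₆)) X (C M)`, `c6f := -Sh ℤ[X] (C (-c₄)) (C (-c₆)) X (C M)`: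

* degrees `≤ 20, 30` and top coefficients `c₄, c₆` (via a Klein point over `ℚ̄`, `H91` E3);
* congruences modulo `M` at `n ≡ 1` (from `Rh_zero`, `Sh_zero` and naturality);
* no root of the 3-division quartic in `ℚ[X]` (`H61.family_no_root_of_map`);
* nonvanishing of the discriminant for large `n`;
* semistability away from `M` (`H93.not_dvd_c4_of_dvd_disc` + E3 over `𝔽̄_p`);
* the congruence of `a_ℓ` mod `5` for `ℓ ≥ 7` (`ThmA` + `H98.dvd_apOfModel_sub_of_short`).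
-/
import Mathlib
import Fermat.Agent.S52.H3.FamilyIface
import Fermat.Agent.S52.H91.KleinPoint
import Fermat.Agent.S52.H61.FamilyNoRoot
import Fermat.Agent.S52.H98.ShortForm
import Fermat.Agent.S52.H62.Model
import Fermat.Agent.S52.H58.TopAssembly

set_option autoImplicit false

namespace Fermat.Agent.S52.H3

open Polynomial
open Fermat.Agent.S52.H93 (kf kH kT kwx kwy)

lemma coeff_pow_mul_pow {R : Type*} [CommRing R] (p q : R[X]) (hp : p.natDegree ≤ 1)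
    (hq : q.natDegree ≤ 1) (i j d : ℕ) (hd : i + j = d) :
    (p ^ i * q ^ j).coeff d = p.coeff 1 ^ i * q.coeff 1 ^ j := by
  subst hd
  have h1 : (p ^ i).natDegree ≤ i := by simpa using natDegree_pow_le_of_le i hp
  have h2 : (q ^ j).natDegree ≤ j := by simpa using natDegree_pow_le_of_le j hq
  rw [coeff_mul_add_eq_of_natDegree_le h1 h2]
  have e1 := coeff_pow_of_natDegree_le (m := i) hp
  have e2 := coeff_pow_of_natDegree_le (m := j) hq
  rw [mul_one] at e1 e2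
  rw [e1, e2]

section TopCoeff

variable {K : Type*} [Field K]

theorem natDegree_kH_line (x0 y0 m : K) :
    (kH (H61.lineX x0 y0 m) (H61.lineY x0 y0 m)).natDegree ≤ 20 := by
  unfold kH H61.lineX H61.lineY
  compute_degree

theorem natDegree_kT_line (x0 y0 m : K) :
    (kT (H61.lineX x0 y0 m) (H61.lineY x0 y0 m)).natDegree ≤ 30 := by
  unfold kT H61.lineX H61.lineY
  compute_degree

theorem coeff_kH_line (x0 y0 m : K) :
    (kH (H61.lineX x0 y0 m) (H61.lineY x0 y0 m)).coeff 20 = kH x0 y0 := by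
  have hp : (H61.lineX x0 y0 m).natDegree ≤ 1 := by unfold H61.lineX; compute_degree
  have hq : (H61.lineY x0 y0 m).natDegree ≤ 1 := by unfold H61.lineY; compute_degree
  have cp : (H61.lineX x0 y0 m).coeff 1 = x0 := by simp [H61.lineX]
  have cq : (H61.lineY x0 y0 m).coeff 1 = y0 := by simp [H61.lineY]
  have key : ∀ i j : ℕ, i + j = 20 →
      (H61.lineX x0 y0 m ^ i * H61.lineY x0 y0 m ^ j).coeff 20 = x0 ^ i * y0 ^ j := by
    intro i j h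
    rw [coeff_pow_mul_pow _ _ hp hq i j 20 h, cp, cq]
  generalize H61.lineX x0 y0 m = p at key
  generalize H61.lineY x0 y0 m = q at key
  have k1 := key 20 0 rfl
  have k2 := key 0 20 rfl
  have k3 := key 15 5 rfl
  have k4 := key 5 15 rfl
  have k5 := key 10 10 rfl
  simp only [pow_zero, mul_one, one_mul] at k1 k2
  unfold kH
  simp only [coeff_add, coeff_sub, coeff_neg, mul_assoc, coeff_ofNat_mul, k1, k2, k3, k4, k5]

theorem coeff_kT_line (x0 y0 m : K) :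
    (kT (H61.lineX x0 y0 m) (H61.lineY x0 y0 m)).coeff 30 = kT x0 y0 := by
  have hp : (H61.lineX x0 y0 m).natDegree ≤ 1 := by unfold H61.lineX; compute_degree
  have hq : (H61.lineY x0 y0 m).natDegree ≤ 1 := by unfold H61.lineY; compute_degree
  have cp : (H61.lineX x0 y0 m).coeff 1 = x0 := by simp [H61.lineX]
  have cq : (H61.lineY x0 y0 m).coeff 1 = y0 := by simp [H61.lineY]
  have key : ∀ i j : ℕ, i + j = 30 →
      (H61.lineX x0 y0 m ^ i * H61.lineY x0 y0 m ^ j).coeff 30 = x0 ^ i * y0 ^ j := by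
    intro i j h
    rw [coeff_pow_mul_pow _ _ hp hq i j 30 h, cp, cq]
  generalize H61.lineX x0 y0 m = p at key
  generalize H61.lineY x0 y0 m = q at key
  have k1 := key 30 0 rfl
  have k2 := key 0 30 rfl
  have k3 := key 25 5 rfl
  have k4 := key 5 25 rfl
  have k5 := key 20 10 rfl
  have k6 := key 10 20 rfl
  simp only [pow_zero, mul_one, one_mul] at k1 k2
  unfold kT
  simp only [coeff_add, coeff_sub, coeff_ofNat_mul, k1, k2, k3, k4, k5, k6]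

end TopCoeff

section Glue

variable {Rh Sh Dh : ∀ (R : Type) [CommRing R], R → R → R → R → R}

/-- E3 (`H91.exists_klein_point'`) in the vocabulary of `H93`. -/
theorem exists_klein_point93 {k : Type} [Field k] [IsAlgClosed k] (h2 : (2 : k) ≠ 0)
    (h3 : (3 : k) ≠ 0) (h5 : (5 : k) ≠ 0) (A0 B0 : k) (hAB : A0 ^ 3 + B0 ^ 2 ≠ 0) :
    ∃ x y : k, kH x y = A0 ∧ kT x y = B0 ∧ kf x y ≠ 0 :=
  H91.exists_klein_point' h2 h3 h5 A0 B0 hAB

/-- The syzygy transported to the family, on the image of `(kH, kT)`. -/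
theorem IsKleinFamily.rel_klein (hfam : IsKleinFamily Rh Sh Dh) {R : Type} [CommRing R]
    (x y n m : R) :
    Sh R (kH x y) (kT x y) n m ^ 2 + Rh R (kH x y) (kT x y) n m ^ 3
      = (kT x y ^ 2 + kH x y ^ 3) * Dh R (kH x y) (kT x y) n m ^ 5 := by
  have h := H93.kT_sq_add_kH_cube (n * x + m * kwx x y) (n * y + m * kwy x y)
  rw [hfam.lineH, hfam.lineT, hfam.lineF] at h
  have h0 := H93.kT_sq_add_kH_cube x y
  rw [h, h0]; ring

/-- The syzygy for the family at integer arguments. -/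
theorem IsKleinFamily.rel_int (hfam : IsKleinFamily Rh Sh Dh) (A B n m : ℤ)
    (hAB : A ^ 3 + B ^ 2 ≠ 0) :
    Sh ℤ A B n m ^ 2 + Rh ℤ A B n m ^ 3 = (B ^ 2 + A ^ 3) * Dh ℤ A B n m ^ 5 := by
  have hAB' : ((A : AlgebraicClosure ℚ)) ^ 3 + (B : AlgebraicClosure ℚ) ^ 2 ≠ 0 := by
    exact_mod_cast hAB
  obtain ⟨x, y, hH, hT, -⟩ := exists_klein_point93 (k := AlgebraicClosure ℚ) two_ne_zero
    three_ne_zero (by norm_num) _ _ hAB'
  have h := hfam.rel_klein x y (n : AlgebraicClosure ℚ) (m : AlgebraicClosure ℚ)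
  rw [hH, hT] at h
  have e1 := hfam.map_Rh (Int.castRingHom (AlgebraicClosure ℚ)) A B n m
  have e2 := hfam.map_Sh (Int.castRingHom (AlgebraicClosure ℚ)) A B n m
  have e3 := hfam.map_Dh (Int.castRingHom (AlgebraicClosure ℚ)) A B n m
  simp only [eq_intCast] at e1 e2 e3
  rw [← e1, ← e2, ← e3] at h
  exact_mod_cast h

theorem IsKleinFamily.dvd_Rh_sub (hfam : IsKleinFamily Rh Sh Dh) (A B n : ℤ) (M : ℕ) :
    (M : ℤ) ∣ Rh ℤ A B n M - A * n ^ 20 := by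
  rw [← ZMod.intCast_zmod_eq_zero_iff_dvd]
  have e := hfam.map_Rh (Int.castRingHom (ZMod M)) A B n (M : ℤ)
  simp only [eq_intCast] at e
  have hM : ((M : ℤ) : ZMod M) = 0 := by simp
  push_cast
  rw [e, hM, hfam.Rh_zero]; ring

theorem IsKleinFamily.dvd_Sh_sub (hfam : IsKleinFamily Rh Sh Dh) (A B n : ℤ) (M : ℕ) :
    (M : ℤ) ∣ Sh ℤ A B n M - B * n ^ 30 := by
  rw [← ZMod.intCast_zmod_eq_zero_iff_dvd]
  have e := hfam.map_Sh (Int.castRingHom (ZMod M)) A B n (M : ℤ)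
  simp only [eq_intCast] at e
  have hM : ((M : ℤ) : ZMod M) = 0 := by simp
  push_cast
  rw [e, hM, hfam.Sh_zero]; ring

theorem IsKleinFamily.eval_Rh (hfam : IsKleinFamily Rh Sh Dh) (A B M n : ℤ) :
    (Rh ℤ[X] (C A) (C B) X (C M)).eval n = Rh ℤ A B n M := by
  have e := hfam.map_Rh (evalRingHom n) (C A) (C B) X (C M)
  simpa using e

theorem IsKleinFamily.eval_Sh (hfam : IsKleinFamily Rh Sh Dh) (A B M n : ℤ) :
    (Sh ℤ[X] (C A) (C B) X (C M)).eval n = Sh ℤ A B n M := by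
  have e := hfam.map_Sh (evalRingHom n) (C A) (C B) X (C M)
  simpa using e

/-- The line identity for `kH` in a polynomial ring over a field. -/
theorem IsKleinFamily.kH_line (hfam : IsKleinFamily Rh Sh Dh) {K : Type} [Field K]
    (x0 y0 m : K) :
    kH (H61.lineX x0 y0 m) (H61.lineY x0 y0 m) = Rh K[X] (C (kH x0 y0)) (C (kT x0 y0)) X (C m) := by
  have h := hfam.lineH (C x0 : K[X]) (C y0) X (C m)
  have e1 : kH (C x0 : K[X]) (C y0) = C (kH x0 y0) := (H61.map_kH (C : K →+* K[X]) x0 y0).symm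
  have e2 : kT (C x0 : K[X]) (C y0) = C (kT x0 y0) := (H61.map_kT (C : K →+* K[X]) x0 y0).symm
  have e3 : kwx (C x0 : K[X]) (C y0) = C (kwx x0 y0) := (H61.map_kwx (C : K →+* K[X]) x0 y0).symm
  have e4 : kwy (C x0 : K[X]) (C y0) = C (kwy x0 y0) := (H61.map_kwy (C : K →+* K[X]) x0 y0).symm
  rw [e1, e2, e3, e4] at h
  rw [← h]
  have a1 : H61.lineX x0 y0 m = X * C x0 + C m * C (kwx x0 y0) := by
    rw [H61.lineX, map_mul]; ring
  have a2 : H61.lineY x0 y0 m = X * C y0 + C m * C (kwy x0 y0) := by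
    rw [H61.lineY, map_mul]; ring
  rw [a1, a2]

theorem IsKleinFamily.kT_line (hfam : IsKleinFamily Rh Sh Dh) {K : Type} [Field K]
    (x0 y0 m : K) :
    kT (H61.lineX x0 y0 m) (H61.lineY x0 y0 m) = Sh K[X] (C (kH x0 y0)) (C (kT x0 y0)) X (C m) := by
  have h := hfam.lineT (C x0 : K[X]) (C y0) X (C m)
  have e1 : kH (C x0 : K[X]) (C y0) = C (kH x0 y0) := (H61.map_kH (C : K →+* K[X]) x0 y0).symm
  have e2 : kT (C x0 : K[X]) (C y0) = C (kT x0 y0) := (H61.map_kT (C : K →+* K[X]) x0 y0).symm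
  have e3 : kwx (C x0 : K[X]) (C y0) = C (kwx x0 y0) := (H61.map_kwx (C : K →+* K[X]) x0 y0).symm
  have e4 : kwy (C x0 : K[X]) (C y0) = C (kwy x0 y0) := (H61.map_kwy (C : K →+* K[X]) x0 y0).symm
  rw [e1, e2, e3, e4] at h
  rw [← h]
  have a1 : H61.lineX x0 y0 m = X * C x0 + C m * C (kwx x0 y0) := by
    rw [H61.lineX, map_mul]; ring
  have a2 : H61.lineY x0 y0 m = X * C y0 + C m * C (kwy x0 y0) := by
    rw [H61.lineY, map_mul]; ring
  rw [a1, a2]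


/-! ### The family polynomials over `ℤ` -/

/-- The modulus `M = 2^7 · 3^4 · 5 · |Δ|`. -/
def famM (W : WeierstrassCurve ℤ) : ℕ := 2 ^ 7 * 3 ^ 4 * 5 * W.Δ.natAbs

/-- `c₄` of the deformed curve as a polynomial in the parameter `n`. -/
noncomputable def famC4 (Rh : ∀ (R : Type) [CommRing R], R → R → R → R → R) (c4 c6 M : ℤ) :
    ℤ[X] := -Rh ℤ[X] (C (-c4)) (C (-c6)) X (C M)

/-- `c₆` of the deformed curve as a polynomial in the parameter `n`. -/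
noncomputable def famC6 (Sh : ∀ (R : Type) [CommRing R], R → R → R → R → R) (c4 c6 M : ℤ) :
    ℤ[X] := -Sh ℤ[X] (C (-c4)) (C (-c6)) X (C M)

theorem famM_pos (W : WeierstrassCurve ℤ) (hΔ : W.Δ ≠ 0) : 0 < famM W := by
  unfold famM
  have : 0 < W.Δ.natAbs := Int.natAbs_pos.mpr hΔ
  positivity

theorem famM_cast (W : WeierstrassCurve ℤ) : ((famM W : ℕ) : ℤ) = 2 ^ 7 * 3 ^ 4 * 5 * |W.Δ| := by
  unfold famM
  push_cast [Int.natCast_natAbs]
  ring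

theorem dvd_famM (W : WeierstrassCurve ℤ) : (2 ^ 7 * 3 ^ 4 : ℤ) ∣ ((famM W : ℕ) : ℤ) := by
  rw [famM_cast]
  exact ⟨5 * |W.Δ|, by ring⟩

theorem IsKleinFamily.eval_famC4 (hfam : IsKleinFamily Rh Sh Dh) (c4 c6 M n : ℤ) :
    (famC4 Rh c4 c6 M).eval n = -Rh ℤ (-c4) (-c6) n M := by
  rw [famC4, eval_neg, hfam.eval_Rh]

theorem IsKleinFamily.eval_famC6 (hfam : IsKleinFamily Rh Sh Dh) (c4 c6 M n : ℤ) :
    (famC6 Sh c4 c6 M).eval n = -Sh ℤ (-c4) (-c6) n M := by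
  rw [famC6, eval_neg, hfam.eval_Sh]

/-- A Klein point over `ℚ̄` with invariants `(-c₄, -c₆)`, and the family polynomials as the Klein
forms on the line through it. -/
theorem IsKleinFamily.exists_point_map (hfam : IsKleinFamily Rh Sh Dh) (c4 c6 M : ℤ)
    (hne : c4 ^ 3 - c6 ^ 2 ≠ 0) :
    ∃ x0 y0 : AlgebraicClosure ℚ, kf x0 y0 ≠ 0 ∧
      (famC4 Rh c4 c6 M).map (Int.castRingHom (AlgebraicClosure ℚ))
        = -kH (H61.lineX x0 y0 (M : AlgebraicClosure ℚ)) (H61.lineY x0 y0 (M : AlgebraicClosure ℚ)) ∧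
      (famC6 Sh c4 c6 M).map (Int.castRingHom (AlgebraicClosure ℚ))
        = -kT (H61.lineX x0 y0 (M : AlgebraicClosure ℚ)) (H61.lineY x0 y0 (M : AlgebraicClosure ℚ)) ∧
      kH x0 y0 = ((-c4 : ℤ) : AlgebraicClosure ℚ) ∧ kT x0 y0 = ((-c6 : ℤ) : AlgebraicClosure ℚ) := by
  have hAB : (((-c4 : ℤ) : AlgebraicClosure ℚ)) ^ 3 + ((-c6 : ℤ) : AlgebraicClosure ℚ) ^ 2 ≠ 0 := by
    have h : (-c4) ^ 3 + (-c6) ^ 2 ≠ 0 := by
      intro h; apply hne; linear_combination -h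
    exact_mod_cast h
  obtain ⟨x0, y0, hH, hT, hf⟩ := exists_klein_point93 (k := AlgebraicClosure ℚ) two_ne_zero
    three_ne_zero (by norm_num) _ _ hAB
  refine ⟨x0, y0, hf, ?_, ?_, hH, hT⟩
  · have e := hfam.map_Rh (mapRingHom (Int.castRingHom (AlgebraicClosure ℚ))) (C (-c4)) (C (-c6))
      X (C M)
    simp only [coe_mapRingHom, map_C, map_X, Int.coe_castRingHom] at e
    rw [famC4, Polynomial.map_neg, e, hfam.kH_line, hH, hT]
  · have e := hfam.map_Sh (mapRingHom (Int.castRingHom (AlgebraicClosure ℚ))) (C (-c4)) (C (-c6))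
      X (C M)
    simp only [coe_mapRingHom, map_C, map_X, Int.coe_castRingHom] at e
    rw [famC6, Polynomial.map_neg, e, hfam.kT_line, hH, hT]

theorem IsKleinFamily.natDegree_famC4 (hfam : IsKleinFamily Rh Sh Dh) (c4 c6 M : ℤ)
    (hne : c4 ^ 3 - c6 ^ 2 ≠ 0) : (famC4 Rh c4 c6 M).natDegree ≤ 20 := by
  obtain ⟨x0, y0, -, h4, -, -, -⟩ := hfam.exists_point_map c4 c6 M hne
  rw [← natDegree_map_eq_of_injective
    (RingHom.injective_int (Int.castRingHom (AlgebraicClosure ℚ))), h4, natDegree_neg]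
  exact natDegree_kH_line _ _ _

theorem IsKleinFamily.natDegree_famC6 (hfam : IsKleinFamily Rh Sh Dh) (c4 c6 M : ℤ)
    (hne : c4 ^ 3 - c6 ^ 2 ≠ 0) : (famC6 Sh c4 c6 M).natDegree ≤ 30 := by
  obtain ⟨x0, y0, -, -, h6, -, -⟩ := hfam.exists_point_map c4 c6 M hne
  rw [← natDegree_map_eq_of_injective
    (RingHom.injective_int (Int.castRingHom (AlgebraicClosure ℚ))), h6, natDegree_neg]
  exact natDegree_kT_line _ _ _

theorem IsKleinFamily.coeff_famC4 (hfam : IsKleinFamily Rh Sh Dh) (c4 c6 M : ℤ)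
    (hne : c4 ^ 3 - c6 ^ 2 ≠ 0) : (famC4 Rh c4 c6 M).coeff 20 = c4 := by
  obtain ⟨x0, y0, -, h4, -, hH, -⟩ := hfam.exists_point_map c4 c6 M hne
  have h := congrArg (fun p => p.coeff 20) h4
  simp only [coeff_map, coeff_neg, coeff_kH_line, hH, eq_intCast] at h
  have h' : (((famC4 Rh c4 c6 M).coeff 20 : ℤ) : AlgebraicClosure ℚ) = ((c4 : ℤ) : AlgebraicClosure ℚ) := by
    rw [h]; push_cast; ring
  exact_mod_cast h'

theorem IsKleinFamily.coeff_famC6 (hfam : IsKleinFamily Rh Sh Dh) (c4 c6 M : ℤ)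
    (hne : c4 ^ 3 - c6 ^ 2 ≠ 0) : (famC6 Sh c4 c6 M).coeff 30 = c6 := by
  obtain ⟨x0, y0, -, -, h6, -, hT⟩ := hfam.exists_point_map c4 c6 M hne
  have h := congrArg (fun p => p.coeff 30) h6
  simp only [coeff_map, coeff_neg, coeff_kT_line, hT, eq_intCast] at h
  have h' : (((famC6 Sh c4 c6 M).coeff 30 : ℤ) : AlgebraicClosure ℚ) = ((c6 : ℤ) : AlgebraicClosure ℚ) := by
    rw [h]; push_cast; ring
  exact_mod_cast h'

theorem IsKleinFamily.hcong4 (hfam : IsKleinFamily Rh Sh Dh) (c4 c6 : ℤ) (M : ℕ) (n : ℤ)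
    (hn : n ≡ 1 [ZMOD (M : ℤ)]) : (M : ℤ) ∣ (famC4 Rh c4 c6 M).eval n - c4 := by
  rw [hfam.eval_famC4]
  have h1 := hfam.dvd_Rh_sub (-c4) (-c6) n M
  have h2 : (M : ℤ) ∣ n ^ 20 - 1 := by
    have h := hn.pow 20
    rw [one_pow] at h
    exact Int.modEq_iff_dvd.mp h.symm
  have e : -Rh ℤ (-c4) (-c6) n M - c4
      = -(Rh ℤ (-c4) (-c6) n M - -c4 * n ^ 20) + c4 * (n ^ 20 - 1) := by ring
  rw [e]
  exact dvd_add (dvd_neg.mpr h1) (Dvd.dvd.mul_left h2 _)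

theorem IsKleinFamily.hcong6 (hfam : IsKleinFamily Rh Sh Dh) (c4 c6 : ℤ) (M : ℕ) (n : ℤ)
    (hn : n ≡ 1 [ZMOD (M : ℤ)]) : (M : ℤ) ∣ (famC6 Sh c4 c6 M).eval n - c6 := by
  rw [hfam.eval_famC6]
  have h1 := hfam.dvd_Sh_sub (-c4) (-c6) n M
  have h2 : (M : ℤ) ∣ n ^ 30 - 1 := by
    have h := hn.pow 30
    rw [one_pow] at h
    exact Int.modEq_iff_dvd.mp h.symm
  have e : -Sh ℤ (-c4) (-c6) n M - c6
      = -(Sh ℤ (-c4) (-c6) n M - -c6 * n ^ 30) + c6 * (n ^ 30 - 1) := by ring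
  rw [e]
  exact dvd_add (dvd_neg.mpr h1) (Dvd.dvd.mul_left h2 _)

/-- (I-a) for the family: the 3-division quartic has no root in `ℚ[X]`. -/
theorem IsKleinFamily.hnoroot (hfam : IsKleinFamily Rh Sh Dh) (c4 c6 M : ℤ) (hM : M ≠ 0)
    (hne : c4 ^ 3 - c6 ^ 2 ≠ 0) (Q : ℚ[X]) :
    Q ^ 4 + 18 * (-27 * (famC4 Rh c4 c6 M).map (Int.castRingHom ℚ)) * Q ^ 2
        + 108 * (-54 * (famC6 Sh c4 c6 M).map (Int.castRingHom ℚ)) * Q
        - 27 * (-27 * (famC4 Rh c4 c6 M).map (Int.castRingHom ℚ)) ^ 2 ≠ 0 := by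
  obtain ⟨x0, y0, hf, h4, h6, -, -⟩ := hfam.exists_point_map c4 c6 M hne
  have hcomp : (algebraMap ℚ (AlgebraicClosure ℚ)).comp (Int.castRingHom ℚ)
      = Int.castRingHom (AlgebraicClosure ℚ) := RingHom.ext_int _ _
  refine H61.family_no_root_of_map (algebraMap ℚ (AlgebraicClosure ℚ)) _ _ x0 y0
    (M : AlgebraicClosure ℚ) hf (by exact_mod_cast hM) ?_ ?_ Q
  · rw [Polynomial.map_mul, Polynomial.map_neg, Polynomial.map_ofNat, Polynomial.map_map, hcomp, h4]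
    ring
  · rw [Polynomial.map_mul, Polynomial.map_neg, Polynomial.map_ofNat, Polynomial.map_map, hcomp, h6]
    ring

/-- The discriminant of the family is nonzero for large `n`. -/
theorem IsKleinFamily.hdisc (hfam : IsKleinFamily Rh Sh Dh) (c4 c6 M : ℤ)
    (hne : c4 ^ 3 - c6 ^ 2 ≠ 0) :
    ∃ B : ℤ, ∀ n : ℤ, B ≤ n →
      (famC4 Rh c4 c6 M).eval n ^ 3 - (famC6 Sh c4 c6 M).eval n ^ 2 ≠ 0 := by
  set P : ℤ[X] := famC4 Rh c4 c6 M ^ 3 - famC6 Sh c4 c6 M ^ 2 with hP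
  have hcoeff : P.coeff 60 = c4 ^ 3 - c6 ^ 2 := by
    have e1 := coeff_pow_of_natDegree_le (m := 3) (hfam.natDegree_famC4 c4 c6 M hne)
    have e2 := coeff_pow_of_natDegree_le (m := 2) (hfam.natDegree_famC6 c4 c6 M hne)
    rw [hfam.coeff_famC4 c4 c6 M hne] at e1
    rw [hfam.coeff_famC6 c4 c6 M hne] at e2
    norm_num at e1 e2
    rw [hP, coeff_sub, e1, e2]
  have hP0 : P ≠ 0 := by
    intro h
    rw [h, coeff_zero] at hcoeff
    exact hne hcoeff.symm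
  obtain ⟨B0, hB0⟩ := P.roots.toFinset.bddAbove
  refine ⟨B0 + 1, fun n hn h0 => ?_⟩
  have hroot : n ∈ P.roots.toFinset := by
    rw [Multiset.mem_toFinset, mem_roots hP0, IsRoot.def, hP, eval_sub, eval_pow, eval_pow]
    exact h0
  have := hB0 hroot
  omega


/-! ### Semistability away from the modulus, and the congruence of `a_ℓ` -/

theorem IsKleinFamily.disc_eq (hfam : IsKleinFamily Rh Sh Dh) (c4 c6 M n : ℤ)
    (hne : c4 ^ 3 - c6 ^ 2 ≠ 0) :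
    (famC4 Rh c4 c6 M).eval n ^ 3 - (famC6 Sh c4 c6 M).eval n ^ 2
      = (c4 ^ 3 - c6 ^ 2) * Dh ℤ (-c4) (-c6) n M ^ 5 := by
  have hAB : (-c4) ^ 3 + (-c6) ^ 2 ≠ 0 := by
    intro h; apply hne; linear_combination -h
  have h := hfam.rel_int (-c4) (-c6) n M hAB
  rw [hfam.eval_famC4, hfam.eval_famC6]
  linear_combination -h

theorem not_dvd_1728 {p : ℕ} (hp : p.Prime) (hp2 : p ≠ 2) (hp3 : p ≠ 3) : ¬ (p : ℤ) ∣ 1728 := by
  intro h
  have h' : p ∣ 1728 := by exact_mod_cast h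
  have h1728 : (1728 : ℕ) = 2 ^ 6 * 3 ^ 3 := by norm_num
  rw [h1728] at h'
  rcases (Nat.Prime.dvd_mul hp).1 h' with h2 | h3
  · exact hp2 ((Nat.prime_dvd_prime_iff_eq hp Nat.prime_two).1 (hp.dvd_of_dvd_pow h2))
  · exact hp3 ((Nat.prime_dvd_prime_iff_eq hp Nat.prime_three).1 (hp.dvd_of_dvd_pow h3))

/-- (K5), semistability of the deformed model at the primes not dividing `M`. -/
theorem IsKleinFamily.haway (hfam : IsKleinFamily Rh Sh Dh) (W : WeierstrassCurve ℤ)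
    (hΔ : W.Δ ≠ 0) (n : ℤ) (p : ℕ) (hp : p.Prime) (hpM : ¬ (p : ℤ) ∣ ((famM W : ℕ) : ℤ))
    (hdvd : (p : ℤ) ∣ (famC4 Rh W.c₄ W.c₆ (famM W)).eval n ^ 3
      - (famC6 Sh W.c₄ W.c₆ (famM W)).eval n ^ 2) :
    ¬ (p : ℤ) ∣ (famC4 Rh W.c₄ W.c₆ (famM W)).eval n := by
  have : Fact p.Prime := ⟨hp⟩
  have hne : W.c₄ ^ 3 - W.c₆ ^ 2 ≠ 0 := by
    rw [← W.c_relation]; exact mul_ne_zero (by norm_num) hΔ
  have hp2 : p ≠ 2 := by
    rintro rfl
    apply hpM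
    rw [famM_cast]
    exact ⟨2 ^ 6 * 3 ^ 4 * 5 * |W.Δ|, by push_cast; ring⟩
  have hp3 : p ≠ 3 := by
    rintro rfl
    apply hpM
    rw [famM_cast]
    exact ⟨2 ^ 7 * 3 ^ 3 * 5 * |W.Δ|, by push_cast; ring⟩
  have hp5 : p ≠ 5 := by
    rintro rfl
    apply hpM
    rw [famM_cast]
    exact ⟨2 ^ 7 * 3 ^ 4 * |W.Δ|, by push_cast; ring⟩
  have hpΔ : ¬ (p : ℤ) ∣ W.Δ := by
    intro h
    apply hpM
    rw [famM_cast]
    exact Dvd.dvd.mul_left ((dvd_abs _ _).mpr h) _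
  have h1728 := not_dvd_1728 hp hp2 hp3
  have hpZ : Prime (p : ℤ) := Nat.prime_iff_prime_int.mp hp
  -- a Klein point over the algebraic closure of `ZMod p`
  have : CharP (AlgebraicClosure (ZMod p)) p :=
    charP_of_injective_algebraMap (algebraMap (ZMod p) (AlgebraicClosure (ZMod p))).injective p
  have hcast : ∀ a : ℤ, ¬ (p : ℤ) ∣ a → ((a : ℤ) : AlgebraicClosure (ZMod p)) ≠ 0 := by
    intro a ha h
    exact ha ((CharP.intCast_eq_zero_iff (AlgebraicClosure (ZMod p)) p a).mp h)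
  have hq : ∀ q : ℕ, q.Prime → q ≠ p → ¬ (p : ℤ) ∣ (q : ℤ) := by
    intro q hq hqp h
    have h' : p ∣ q := by exact_mod_cast h
    exact hqp ((Nat.prime_dvd_prime_iff_eq hp hq).mp h').symm
  have h2k : (2 : AlgebraicClosure (ZMod p)) ≠ 0 := by
    have := hcast 2 (by exact_mod_cast hq 2 Nat.prime_two (Ne.symm hp2))
    exact_mod_cast this
  have h3k : (3 : AlgebraicClosure (ZMod p)) ≠ 0 := by
    have := hcast 3 (by exact_mod_cast hq 3 Nat.prime_three (Ne.symm hp3))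
    exact_mod_cast this
  have h5k : (5 : AlgebraicClosure (ZMod p)) ≠ 0 := by
    have := hcast 5 (by exact_mod_cast hq 5 Nat.prime_five (Ne.symm hp5))
    exact_mod_cast this
  have hAB : (((-W.c₄ : ℤ) : AlgebraicClosure (ZMod p))) ^ 3
      + ((-W.c₆ : ℤ) : AlgebraicClosure (ZMod p)) ^ 2 ≠ 0 := by
    have h : ¬ (p : ℤ) ∣ (-W.c₄) ^ 3 + (-W.c₆) ^ 2 := by
      intro h
      have e : (-W.c₄) ^ 3 + (-W.c₆) ^ 2 = -(1728 * W.Δ) := by
        rw [W.c_relation]; ring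
      rw [e, dvd_neg] at h
      rcases hpZ.dvd_or_dvd h with h | h
      · exact h1728 h
      · exact hpΔ h
    have := hcast _ h
    exact_mod_cast this
  obtain ⟨x₀, y₀, hH, hT, -⟩ := exists_klein_point93 h2k h3k h5k _ _ hAB
  have hdisc := hfam.disc_eq W.c₄ W.c₆ (famM W) n hne
  refine H93.not_dvd_c4_of_dvd_disc (k := AlgebraicClosure (ZMod p)) hp2 hp3 hp5 (x₀ := x₀)
    (y₀ := y₀) (c₄ := W.c₄) (c₆ := W.c₆) (D := W.Δ) (n := n) (M := ((famM W : ℕ) : ℤ))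
    (C₆ := (famC6 Sh W.c₄ W.c₆ (famM W)).eval n)
    (D' := W.Δ * Dh ℤ (-W.c₄) (-W.c₆) n (famM W) ^ 5) ?_ ?_ W.c_relation hpΔ hpM ?_ ?_ ?_ ?_
  · rw [hH]; push_cast; ring
  · rw [hT]; push_cast; ring
  · rw [hfam.lineH, hH, hT, hfam.eval_famC4]
    have e := hfam.map_Rh (Int.castRingHom (AlgebraicClosure (ZMod p))) (-W.c₄) (-W.c₆) n (famM W)
    simp only [eq_intCast] at e
    rw [← e]; push_cast; ring
  · rw [hfam.lineT, hH, hT, hfam.eval_famC6]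
    have e := hfam.map_Sh (Int.castRingHom (AlgebraicClosure (ZMod p))) (-W.c₄) (-W.c₆) n (famM W)
    simp only [eq_intCast] at e
    rw [← e]; push_cast; ring
  · rw [hdisc, ← W.c_relation]; ring
  · have h : (p : ℤ) ∣ 1728 * (W.Δ * Dh ℤ (-W.c₄) (-W.c₆) n (famM W) ^ 5) := by
      have e : 1728 * (W.Δ * Dh ℤ (-W.c₄) (-W.c₆) n (famM W) ^ 5)
          = (famC4 Rh W.c₄ W.c₆ (famM W)).eval n ^ 3
            - (famC6 Sh W.c₄ W.c₆ (famM W)).eval n ^ 2 := by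
        rw [hdisc, ← W.c_relation]; ring
      rw [e]; exact hdvd
    exact (hpZ.dvd_or_dvd h).resolve_left h1728

/-- The congruence of `a_ℓ` modulo `5` at the primes `ℓ ≥ 7` good for both models, from
Theorem A'. -/
theorem IsKleinFamily.hA (hfam : IsKleinFamily Rh Sh Dh) (hA : ThmA Rh Sh Dh)
    (W : WeierstrassCurve ℤ) (M n : ℤ) (W' : WeierstrassCurve ℤ)
    (h4 : W'.c₄ = (famC4 Rh W.c₄ W.c₆ M).eval n)
    (h6 : W'.c₆ = (famC6 Sh W.c₄ W.c₆ M).eval n) (ℓ : ℕ) (hℓ : ℓ.Prime) (h7 : 7 ≤ ℓ)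
    (hg : W.IsGoodPrimeFor ℓ) (hg' : W'.IsGoodPrimeFor ℓ) :
    (5 : ℤ) ∣ W'.apOfModel ℓ - W.apOfModel ℓ := by
  have : Fact ℓ.Prime := ⟨hℓ⟩
  have hℓ2 : ℓ ≠ 2 := by omega
  have hℓ3 : ℓ ≠ 3 := by omega
  have h1728 := not_dvd_1728 hℓ hℓ2 hℓ3
  have hℓZ : Prime (ℓ : ℤ) := Nat.prime_iff_prime_int.mp hℓ
  have hgΔ : ¬ (ℓ : ℤ) ∣ W.Δ := hg
  have hgΔ' : ¬ (ℓ : ℤ) ∣ W'.Δ := hg'
  have hne : W.c₄ ^ 3 - W.c₆ ^ 2 ≠ 0 := by
    intro h
    apply hgΔ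
    have h0 : W.Δ = 0 := by
      have := W.c_relation
      rw [h] at this
      simpa using this
    rw [h0]; exact dvd_zero _
  have hdisc := hfam.disc_eq W.c₄ W.c₆ M n hne
  -- `A₀³ + B₀² ≠ 0` in `ZMod ℓ`
  have hAB : (((-W.c₄ : ℤ) : ZMod ℓ)) ^ 3 + ((-W.c₆ : ℤ) : ZMod ℓ) ^ 2 ≠ 0 := by
    have h : ¬ (ℓ : ℤ) ∣ (-W.c₄) ^ 3 + (-W.c₆) ^ 2 := by
      intro h
      have e : (-W.c₄) ^ 3 + (-W.c₆) ^ 2 = -(1728 * W.Δ) := by
        rw [W.c_relation]; ring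
      rw [e, dvd_neg] at h
      rcases hℓZ.dvd_or_dvd h with h | h
      · exact h1728 h
      · exact hgΔ h
    intro h0
    apply h
    rw [← ZMod.intCast_zmod_eq_zero_iff_dvd]
    push_cast
    push_cast at h0
    exact h0
  -- `Dh ≠ 0` in `ZMod ℓ`
  have eD := hfam.map_Dh (Int.castRingHom (ZMod ℓ)) (-W.c₄) (-W.c₆) n M
  have eR := hfam.map_Rh (Int.castRingHom (ZMod ℓ)) (-W.c₄) (-W.c₆) n M
  have eS := hfam.map_Sh (Int.castRingHom (ZMod ℓ)) (-W.c₄) (-W.c₆) n M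
  simp only [eq_intCast] at eD eR eS
  have hDh : Dh (ZMod ℓ) ((-W.c₄ : ℤ) : ZMod ℓ) ((-W.c₆ : ℤ) : ZMod ℓ) (n : ZMod ℓ) (M : ZMod ℓ)
      ≠ 0 := by
    rw [← eD]
    intro h0
    have hd : (ℓ : ℤ) ∣ Dh ℤ (-W.c₄) (-W.c₆) n M := (ZMod.intCast_zmod_eq_zero_iff_dvd _ ℓ).mp h0
    apply hgΔ'
    have e : 1728 * W'.Δ = 1728 * (W.Δ * Dh ℤ (-W.c₄) (-W.c₆) n M ^ 5) := by
      rw [W'.c_relation, h4, h6, hdisc, ← W.c_relation]; ring
    have e' : W'.Δ = W.Δ * Dh ℤ (-W.c₄) (-W.c₆) n M ^ 5 := by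
      have h1728' : (1728 : ℤ) ≠ 0 := by norm_num
      exact mul_left_cancel₀ h1728' e
    rw [e']
    exact Dvd.dvd.mul_left (dvd_pow hd (by norm_num)) _
  have key := hA ℓ h7 _ _ _ _ hAB hDh
  apply H98.dvd_apOfModel_sub_of_short W W' ℓ (by omega) 5
  rw [← dvd_neg, neg_sub]
  have e1 : -27 * ((W'.c₄ : ℤ) : ZMod ℓ)
      = 27 * Rh (ZMod ℓ) ((-W.c₄ : ℤ) : ZMod ℓ) ((-W.c₆ : ℤ) : ZMod ℓ) (n : ZMod ℓ) (M : ZMod ℓ) := by
    rw [h4, hfam.eval_famC4, ← eR]; push_cast; ring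
  have e2 : -54 * ((W'.c₆ : ℤ) : ZMod ℓ)
      = 54 * Sh (ZMod ℓ) ((-W.c₄ : ℤ) : ZMod ℓ) ((-W.c₆ : ℤ) : ZMod ℓ) (n : ZMod ℓ) (M : ZMod ℓ) := by
    rw [h6, hfam.eval_famC6, ← eS]; push_cast; ring
  have e3 : -27 * ((W.c₄ : ℤ) : ZMod ℓ) = 27 * ((-W.c₄ : ℤ) : ZMod ℓ) := by push_cast; ring
  have e4 : -54 * ((W.c₆ : ℤ) : ZMod ℓ) = 54 * ((-W.c₆ : ℤ) : ZMod ℓ) := by push_cast; ring
  rw [e1, e2, e3, e4]
  exact key

/-- **S52 from a Klein family and Theorem A'.**  The frozen conclusion of S52 (the hypothesis on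
the mod-`5` representation is not needed). -/
theorem s52_of_kleinFamily (hfam : IsKleinFamily Rh Sh Dh) (hA : ThmA Rh Sh Dh)
    (W : WeierstrassCurve ℤ) (hΔ : W.Δ ≠ 0) (hW : W.IsSemistableModel) :
    ∃ W' : WeierstrassCurve ℤ, W'.Δ ≠ 0 ∧ W'.IsSemistableModel ∧ W'.ModRepIsIrreducible 3 ∧
      ∀ ℓ : ℕ, ℓ.Prime → W.IsGoodPrimeFor ℓ → W'.IsGoodPrimeFor ℓ → ℓ ≠ 5 →
        (5 : ℤ) ∣ (W'.apOfModel ℓ - W.apOfModel ℓ) := by
  have hne : W.c₄ ^ 3 - W.c₆ ^ 2 ≠ 0 := by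
    rw [← W.c_relation]; exact mul_ne_zero (by norm_num) hΔ
  have hM0 : ((famM W : ℕ) : ℤ) ≠ 0 := by
    exact_mod_cast (famM_pos W hΔ).ne'
  exact H58.s52_of_family W hΔ hW (famM W) (famM_pos W hΔ) (dvd_famM W)
    (famC4 Rh W.c₄ W.c₆ (famM W)) (famC6 Sh W.c₄ W.c₆ (famM W))
    (hfam.natDegree_famC4 _ _ _ hne) (hfam.natDegree_famC6 _ _ _ hne)
    (hfam.coeff_famC4 _ _ _ hne) (hfam.coeff_famC6 _ _ _ hne)
    (fun n hn => hfam.hcong4 _ _ _ n hn) (fun n hn => hfam.hcong6 _ _ _ n hn)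
    (fun Q => hfam.hnoroot _ _ _ hM0 hne Q)
    (hfam.hdisc _ _ _ hne)
    (fun n _ p hp hpM hdvd => hfam.haway W hΔ n p hp hpM hdvd)
    (fun n _ W' h4 h6 ℓ hℓ h7 hg hg' => hfam.hA hA W _ n W' h4 h6 ℓ hℓ h7 hg hg')

end Glue

end Fermat.Agent.S52.H3
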