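/-
S52 / Program E, leaf E1-ALG (helper3): the abstract algebra of Manin's method.

From the five "height" properties (M*), (MPhi), (Msig), (MN), (MZ) of a function
`h : G → ℕ` on an abelian group `G` with an endomorphism `Φ` and a point `P₀`,
we derive `h (Φ² P₀ - a Φ P₀ + l P₀) = 0` for `a = l + 1 - N`, hence
`2 • (Φ² P₀ - a Φ P₀ + l P₀) = 0`.  Mathlib only.
-/
import Mathlib

set_option autoImplicit false

namespace Fermat.Agent.S52.H3

/-- A two-sided integer sequence with constant second difference `2` is a monic quadratic. -/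
theorem quad_of_second_diff (u : ℤ → ℤ) (hu : ∀ n, u (n + 1) + u (n - 1) = 2 * u n + 2) (n : ℤ) :
    u n = n ^ 2 + (u 1 - u 0 - 1) * n + u 0 := by
  have key : ∀ n : ℤ, u n = n ^ 2 + (u 1 - u 0 - 1) * n + u 0 ∧
      u (n + 1) = (n + 1) ^ 2 + (u 1 - u 0 - 1) * (n + 1) + u 0 := by
    intro n
    induction n using Int.induction_on with
    | zero =>
      refine ⟨by ring, ?_⟩
      rw [zero_add]; ring
    | succ i ih =>
      obtain ⟨h1, h2⟩ := ih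
      refine ⟨h2, ?_⟩
      have h3 := hu ((i : ℤ) + 1)
      have e : (i : ℤ) + 1 - 1 = i := by ring
      rw [e] at h3
      linear_combination h3 + 2 * h2 - h1
    | pred i ih =>
      obtain ⟨h1, h2⟩ := ih
      have e : (-(i : ℤ) - 1 + 1) = -(i : ℤ) := by ring
      refine ⟨?_, by rw [e]; exact h1⟩
      have h3 := hu (-(i : ℤ))
      linear_combination h3 + 2 * h1 - h2
  exact (key n).1

section

variable {G : Type*} [AddCommGroup G] (h : G → ℕ) (Φ : G →+ G) (P₀ : G)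

/-- (M*) alone: `n ↦ h (P + n • P₀)` is a monic quadratic polynomial in `n`. -/
theorem height_add_zsmul
    (Mstar : ∀ P, h (P + P₀) + h (P - P₀) = 2 * h P + 2) (P : G) (n : ℤ) :
    (h (P + n • P₀) : ℤ) = n ^ 2 + ((h (P + P₀) : ℤ) - h P - 1) * n + h P := by
  have hu : ∀ n : ℤ, (h (P + (n + 1) • P₀) : ℤ) + h (P + (n - 1) • P₀)
      = 2 * (h (P + n • P₀) : ℤ) + 2 := by
    intro n
    have e1 : P + (n + 1) • P₀ = (P + n • P₀) + P₀ := by rw [add_zsmul, one_zsmul, add_assoc]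
    have e2 : P + (n - 1) • P₀ = (P + n • P₀) - P₀ := by
      rw [sub_zsmul, one_zsmul]; abel
    rw [e1, e2]
    exact_mod_cast Mstar (P + n • P₀)
  have := quad_of_second_diff (fun n : ℤ => (h (P + n • P₀) : ℤ)) hu n
  simpa only [one_zsmul, zero_zsmul, add_zero] using this

/-- `h (n • P₀) = n²`. -/
theorem height_zsmul_base (h0 : h 0 = 0) (hP₀ : h P₀ = 1)
    (Mstar : ∀ P, h (P + P₀) + h (P - P₀) = 2 * h P + 2) (n : ℤ) :
    (h (n • P₀) : ℤ) = n ^ 2 := by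
  have := height_add_zsmul h P₀ Mstar 0 n
  simp only [zero_add, h0, hP₀] at this
  rw [this]; push_cast; ring

/-- The main algebraic consequence of Manin's five height properties. -/
theorem manin_algebra (l N : ℕ) (hl : l.Prime)
    (h0 : h 0 = 0) (hP₀ : h P₀ = 1)
    (Mstar : ∀ P, h (P + P₀) + h (P - P₀) = 2 * h P + 2)
    (MPhi : ∀ P, h (Φ P) = l * h P)
    (Msig : ∀ Q, h Q ≠ 0 → ∃ σ : G →+ G, σ P₀ = Q ∧ (∀ P, σ (Φ P) = Φ (σ P)) ∧
      ∀ P, h (σ P) = h P * h Q)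
    (MN : h (Φ P₀ - P₀) = N)
    (MZ : ∀ R, h R = 0 → 2 • R = 0) :
    h (Φ (Φ P₀) - ((l : ℤ) + 1 - N) • Φ P₀ + (l : ℤ) • P₀) = 0 := by
  classical
  -- notation
  set q : ℤ → ℤ → ℤ := fun m n => (h (m • P₀ + n • Φ P₀) : ℤ) with hq
  have hbase : ∀ n : ℤ, (h (n • P₀) : ℤ) = n ^ 2 := height_zsmul_base h P₀ h0 hP₀ Mstar
  have hPhi : ∀ P, (h (Φ P) : ℤ) = l * h P := fun P => by exact_mod_cast MPhi P
  -- homogeneity on the span of P₀, Φ P₀
  have hhom : ∀ k : ℤ, k ≠ 0 → ∀ m n : ℤ, q (k * m) (k * n) = k ^ 2 * q m n := by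
    intro k hk m n
    have hne : h (k • P₀) ≠ 0 := by
      intro h0'
      have := hbase k
      rw [h0'] at this
      have : k ^ 2 = 0 := by simpa using this.symm
      exact hk (by simpa using this)
    obtain ⟨σ, hσ0, hσΦ, hσh⟩ := Msig (k • P₀) hne
    have e : σ (m • P₀ + n • Φ P₀) = (k * m) • P₀ + (k * n) • Φ P₀ := by
      rw [map_add, map_zsmul, map_zsmul, hσΦ, hσ0, map_zsmul, smul_smul, smul_smul,
        mul_comm m k, mul_comm n k]
    have := hσh (m • P₀ + n • Φ P₀)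
    rw [e] at this
    have h2 : (h ((k * m) • P₀ + (k * n) • Φ P₀) : ℤ)
        = (h (m • P₀ + n • Φ P₀) : ℤ) * (h (k • P₀) : ℤ) := by exact_mod_cast this
    simp only [hq]
    rw [h2, hbase k]; ring
  -- q is a monic quadratic in m
  have hqm : ∀ m n : ℤ, q m n = m ^ 2 + (q 1 n - l * n ^ 2 - 1) * m + l * n ^ 2 := by
    intro m n
    have h1 := height_add_zsmul h P₀ Mstar (n • Φ P₀) m
    have e0 : (h (n • Φ P₀) : ℤ) = l * n ^ 2 := by
      rw [← map_zsmul, hPhi, hbase]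
    have e1 : n • Φ P₀ + m • P₀ = m • P₀ + n • Φ P₀ := add_comm _ _
    have e2 : n • Φ P₀ + P₀ = (1 : ℤ) • P₀ + n • Φ P₀ := by rw [one_zsmul, add_comm]
    rw [e1, e2, e0] at h1
    simp only [hq]
    exact h1
  set a : ℤ := q 1 1 - l - 1 with ha
  have hB : ∀ n : ℤ, q 1 n - l * n ^ 2 - 1 = a * n := by
    intro n
    rcases eq_or_ne n 0 with rfl | hn
    · have : q 1 0 = 1 := by
        simp only [hq, one_zsmul, zero_zsmul, add_zero, hP₀]; rfl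
      rw [this]; ring
    · have h1 := hhom n hn 1 1
      rw [hqm (n * 1) (n * 1), hqm 1 1] at h1
      have h2 : n * (q 1 (n * 1) - l * (n * 1) ^ 2 - 1) = n * (a * n) := by
        rw [ha]; linear_combination h1
      have h3 := mul_left_cancel₀ hn h2
      simpa using h3
  have hqf : ∀ m n : ℤ, q m n = m ^ 2 + a * m * n + l * n ^ 2 := by
    intro m n
    rw [hqm m n, hB n]; ring
  -- the value of a
  have haN : a = (l : ℤ) + 1 - N := by
    have e : Φ P₀ - P₀ = (-1 : ℤ) • P₀ + (1 : ℤ) • Φ P₀ := by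
      rw [neg_one_zsmul, one_zsmul]; abel
    have h1 : q (-1) 1 = N := by
      simp only [hq]; rw [← e]; exact_mod_cast MN
    rw [hqf] at h1
    linear_combination -h1
  -- nonvanishing of q(m, 1)
  have hqne : ∀ m : ℤ, h (m • P₀ + (1 : ℤ) • Φ P₀) ≠ 0 := by
    intro m hm
    have h2 := MZ _ hm
    have e1 : (2 : ℤ) • Φ P₀ = (-(2 * m)) • P₀ := by
      have h3 : (2 : ℤ) • (m • P₀ + (1 : ℤ) • Φ P₀) = 0 := by
        rw [ofNat_zsmul]; exact h2
      rw [smul_add, smul_smul, smul_smul, mul_one] at h3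
      rw [neg_zsmul]
      exact eq_neg_of_add_eq_zero_right h3
    have e2 : (h ((2 : ℤ) • Φ P₀) : ℤ) = l * 4 := by
      rw [← map_zsmul, hPhi, hbase]; norm_num
    have e3 : (h ((-(2 * m)) • P₀) : ℤ) = 4 * m ^ 2 := by
      rw [hbase]; ring
    rw [e1, e3] at e2
    have e4 : (l : ℤ) = m ^ 2 := by linarith
    have e5 : l = m.natAbs ^ 2 := by
      have : (l : ℤ) = ((m.natAbs ^ 2 : ℕ) : ℤ) := by
        rw [e4]; push_cast; exact (sq_abs m).symm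
      exact_mod_cast this
    rw [e5] at hl
    exact Nat.Prime.not_prime_pow (le_refl 2) hl
  -- the second quadratic
  have hrm : ∀ m : ℤ, ∃ C : ℤ, ∀ n : ℤ, (h (Φ (Φ P₀) + m • Φ P₀ + n • P₀) : ℤ)
      = n ^ 2 + C * n + l * q m 1 := by
    intro m
    refine ⟨(h (Φ (Φ P₀) + m • Φ P₀ + P₀) : ℤ) - h (Φ (Φ P₀) + m • Φ P₀) - 1, fun n => ?_⟩
    have h1 := height_add_zsmul h P₀ Mstar (Φ (Φ P₀) + m • Φ P₀) n
    have e0 : (h (Φ (Φ P₀) + m • Φ P₀) : ℤ) = l * q m 1 := by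
      have : Φ (Φ P₀) + m • Φ P₀ = Φ (m • P₀ + (1 : ℤ) • Φ P₀) := by
        rw [map_add, map_zsmul, map_zsmul, one_zsmul, add_comm]
      rw [this, hPhi]
    rw [h1, e0]
  -- multiplicativity
  have hmul : ∀ m₁ m₂ : ℤ, (h (Φ (Φ P₀) + (m₁ + m₂) • Φ P₀ + (m₁ * m₂) • P₀) : ℤ)
      = q m₁ 1 * q m₂ 1 := by
    intro m₁ m₂
    obtain ⟨σ, hσ0, hσΦ, hσh⟩ := Msig (m₂ • P₀ + (1 : ℤ) • Φ P₀) (hqne m₂)
    have e : σ (m₁ • P₀ + (1 : ℤ) • Φ P₀)
        = Φ (Φ P₀) + (m₁ + m₂) • Φ P₀ + (m₁ * m₂) • P₀ := by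
      rw [map_add, map_zsmul, map_zsmul, hσΦ, hσ0, one_zsmul, one_zsmul, map_add, map_zsmul,
        smul_add, smul_smul, add_zsmul]
      abel
    have := hσh (m₁ • P₀ + (1 : ℤ) • Φ P₀)
    rw [e] at this
    simp only [hq]
    exact_mod_cast this
  -- choose m₁ + m₂ = -a with m₁ m₂ ≠ 0
  obtain ⟨m₁, m₂, hsum, hprod⟩ : ∃ m₁ m₂ : ℤ, m₁ + m₂ = -a ∧ m₁ * m₂ ≠ 0 := by
    by_cases h1 : -a = 1
    · exact ⟨2, -1, by rw [h1]; norm_num, by norm_num⟩
    · refine ⟨1, -a - 1, by ring, ?_⟩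
      rw [one_mul]
      intro h2
      exact h1 (by linarith)
  obtain ⟨C, hC⟩ := hrm (-a)
  have h1 := hmul m₁ m₂
  rw [hsum, hC (m₁ * m₂), hqf m₁ 1, hqf m₂ 1, hqf (-a) 1] at h1
  have hCval : C = -2 * l := by
    have h2 : (m₁ * m₂) * C = (m₁ * m₂) * (-2 * l) := by
      have hm₂ : m₂ = -a - m₁ := by linarith
      subst hm₂
      linear_combination h1
    exact mul_left_cancel₀ hprod h2
  have h3 := hC (l : ℤ)
  rw [hCval, hqf (-a) 1] at h3
  have h4 : (h (Φ (Φ P₀) + (-a) • Φ P₀ + (l : ℤ) • P₀) : ℤ) = 0 := by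
    rw [h3]; ring
  have e : Φ (Φ P₀) - ((l : ℤ) + 1 - N) • Φ P₀ + (l : ℤ) • P₀
      = Φ (Φ P₀) + (-a) • Φ P₀ + (l : ℤ) • P₀ := by
    rw [haN, neg_zsmul, sub_eq_add_neg]
  rw [e]
  exact_mod_cast h4

/-- Corollary: the point `Φ² P₀ - a Φ P₀ + l P₀` is killed by `2`. -/
theorem manin_two_torsion (l N : ℕ) (hl : l.Prime)
    (h0 : h 0 = 0) (hP₀ : h P₀ = 1)
    (Mstar : ∀ P, h (P + P₀) + h (P - P₀) = 2 * h P + 2)
    (MPhi : ∀ P, h (Φ P) = l * h P)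
    (Msig : ∀ Q, h Q ≠ 0 → ∃ σ : G →+ G, σ P₀ = Q ∧ (∀ P, σ (Φ P) = Φ (σ P)) ∧
      ∀ P, h (σ P) = h P * h Q)
    (MN : h (Φ P₀ - P₀) = N)
    (MZ : ∀ R, h R = 0 → 2 • R = 0) :
    2 • (Φ (Φ P₀) - ((l : ℤ) + 1 - N) • Φ P₀ + (l : ℤ) • P₀) = 0 :=
  MZ _ (manin_algebra h Φ P₀ l N hl h0 hP₀ Mstar MPhi Msig MN MZ)

end

end Fermat.Agent.S52.H3
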